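/-
S55 / 13b-LOCFIELD-API (helper17): finite extensions of `ℚ_[q]` inside `PadicAlgCl q`.
Basic facts on the norm: Galois invariance, `‖x‖ ^ [L:ℚ_q] = ‖N x‖`, discreteness of the value
group (existence of a uniformizer), every nonzero element is `π ^ m` times a unit.
-/
import Mathlib
import Fermat.Prelude.Def_GaloisRep_CompletionBridge

set_option autoImplicit false

noncomputable section

namespace Fermat.Agent.S55.LocField17

open Module

variable (q : ℕ) [Fact q.Prime]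

/-- local fields in this model: intermediate fields of `PadicAlgCl q / ℚ_[q]`. -/
abbrev LF := IntermediateField ℚ_[q] (PadicAlgCl q)

/-- the local absolute Galois group. -/
abbrev Gq := PadicAlgCl q ≃ₐ[ℚ_[q]] PadicAlgCl q

variable {q}

theorem norm_eq_of_minpoly_eq {x y : PadicAlgCl q} (h : minpoly ℚ_[q] x = minpoly ℚ_[q] y) :
    ‖x‖ = ‖y‖ := by
  rw [← PadicAlgCl.spectralNorm_eq, ← PadicAlgCl.spectralNorm_eq, spectralNorm, spectralNorm, h]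

theorem norm_algEquiv (σ : Gq q) (x : PadicAlgCl q) : ‖σ x‖ = ‖x‖ :=
  norm_eq_of_minpoly_eq (minpoly.algEquiv_eq σ x)

theorem norm_algHom {L : LF q} (f : L →ₐ[ℚ_[q]] PadicAlgCl q) (x : L) :
    ‖f x‖ = ‖(x : PadicAlgCl q)‖ := by
  apply norm_eq_of_minpoly_eq
  rw [minpoly.algHom_eq f f.injective x]
  exact (minpoly.algebraMap_eq (algebraMap L (PadicAlgCl q)).injective x).symm

/-- `‖x‖ ^ [L : ℚ_q] = ‖N_{L/ℚ_q} x‖`. -/
theorem norm_pow_finrank (L : LF q) [FiniteDimensional ℚ_[q] L] (x : L) :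
    ‖(x : PadicAlgCl q)‖ ^ finrank ℚ_[q] L = ‖Algebra.norm ℚ_[q] x‖ := by
  have h := Algebra.norm_eq_prod_embeddings ℚ_[q] (PadicAlgCl q) x
  have h2 : ‖algebraMap ℚ_[q] (PadicAlgCl q) (Algebra.norm ℚ_[q] x)‖ = ‖Algebra.norm ℚ_[q] x‖ :=
    PadicAlgCl.norm_extends q _
  rw [← h2, h, norm_prod]
  simp only [norm_algHom]
  rw [Finset.prod_const, Finset.card_univ, AlgHom.card_of_splits]
  intro s
  exact IsAlgClosed.splits _

/-- `π : L` is a uniformizer: nonzero, of norm `< 1`, and of maximal norm among those. -/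
def IsUnif (L : LF q) (π : L) : Prop :=
  π ≠ 0 ∧ ‖(π : PadicAlgCl q)‖ < 1 ∧ ∀ x : L, ‖(x : PadicAlgCl q)‖ < 1 →
    ‖(x : PadicAlgCl q)‖ ≤ ‖(π : PadicAlgCl q)‖

theorem norm_q_lt_one : ‖((q : ℚ_[q]) : PadicAlgCl q)‖ < 1 := by
  rw [PadicAlgCl.norm_extends]
  exact Padic.norm_p_lt_one

theorem exists_isUnif (L : LF q) [FiniteDimensional ℚ_[q] L] : ∃ π : L, IsUnif L π := by
  classical
  have hq1 : (1 : ℝ) < q := by exact_mod_cast (Fact.out : q.Prime).one_lt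
  have hq0 : (0 : ℝ) < q := by linarith
  have hd : 0 < finrank ℚ_[q] L := finrank_pos
  -- the valuation of the norm
  let w : L → ℤ := fun x => (Algebra.norm ℚ_[q] x).valuation
  have hw : ∀ x : L, x ≠ 0 →
      ‖(x : PadicAlgCl q)‖ ^ finrank ℚ_[q] L = (q : ℝ) ^ (-(w x)) := by
    intro x hx
    rw [norm_pow_finrank]
    exact Padic.norm_eq_zpow_neg_valuation (Algebra.norm_ne_zero_iff.mpr hx)
  have hlt : ∀ x : L, x ≠ 0 → (‖(x : PadicAlgCl q)‖ < 1 ↔ 0 < w x) := by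
    intro x hx
    rw [← pow_lt_one_iff_of_nonneg (norm_nonneg _) hd.ne', hw x hx]
    rw [zpow_lt_one_iff_right₀ hq1]
    omega
  let P : ℕ → Prop := fun k => ∃ x : L, x ≠ 0 ∧ w x = (k : ℤ) ∧ 0 < k
  have hP : ∃ k, P k := by
    have hqL : algebraMap ℚ_[q] L (q : ℚ_[q]) ≠ 0 := by
      rw [Ne, map_eq_zero]
      exact_mod_cast (Fact.out : q.Prime).ne_zero
    have h1 : ‖((algebraMap ℚ_[q] L (q : ℚ_[q]) : L) : PadicAlgCl q)‖ < 1 := norm_q_lt_one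
    have h2 := (hlt _ hqL).mp h1
    refine ⟨(w (algebraMap ℚ_[q] L (q : ℚ_[q]))).toNat, _, hqL, ?_, ?_⟩
    · rw [Int.toNat_of_nonneg h2.le]
    · omega
  obtain ⟨π, hπ0, hπw, hπk⟩ := Nat.find_spec hP
  refine ⟨π, hπ0, ?_, ?_⟩
  · rw [hlt π hπ0, hπw]
    exact_mod_cast hπk
  · intro x hx
    by_cases hx0 : x = 0
    · rw [hx0]
      simp
    have hwx := (hlt x hx0).mp hx
    have hmin : Nat.find hP ≤ (w x).toNat := by
      apply Nat.find_min' hP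
      refine ⟨x, hx0, ?_, ?_⟩
      · rw [Int.toNat_of_nonneg hwx.le]
      · omega
    have hle : w π ≤ w x := by
      rw [hπw]
      have := Int.toNat_of_nonneg hwx.le
      omega
    rw [← pow_le_pow_iff_left₀ (norm_nonneg _) (norm_nonneg _) hd.ne', hw x hx0, hw π hπ0]
    rw [zpow_le_zpow_iff_right₀ hq1]
    omega

theorem IsUnif.norm_pos {L : LF q} {π : L} (hπ : IsUnif L π) : 0 < ‖(π : PadicAlgCl q)‖ :=
  norm_pos_iff.mpr (by simpa using hπ.1)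

/-- every nonzero element has the norm of a power of the uniformizer. -/
theorem exists_zpow {L : LF q} {π : L} (hπ : IsUnif L π) (x : L) (hx : x ≠ 0) :
    ∃ m : ℤ, ‖(x : PadicAlgCl q)‖ = ‖(π : PadicAlgCl q)‖ ^ m := by
  have hπ0 := hπ.norm_pos
  have hπ1 := hπ.2.1
  have hx0 : 0 < ‖(x : PadicAlgCl q)‖ := norm_pos_iff.mpr (by simpa using hx)
  -- `‖π‖⁻¹ > 1`; find `m` with `‖π‖⁻¹ ^ m ≤ ‖x‖⁻¹ < ‖π‖⁻¹ ^ (m+1)`
  have h1 : 1 < ‖(π : PadicAlgCl q)‖⁻¹ := (one_lt_inv₀ hπ0).mpr hπ1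
  obtain ⟨m, hm1, hm2⟩ := exists_mem_Ico_zpow (inv_pos.mpr hx0) h1
  refine ⟨m, ?_⟩
  -- y := x / π ^ m has norm in (‖π‖, 1]
  let y : L := x / π ^ m
  have hy : ‖(y : PadicAlgCl q)‖ = ‖(x : PadicAlgCl q)‖ / ‖(π : PadicAlgCl q)‖ ^ m := by
    have : ((π ^ m : L) : PadicAlgCl q) = (π : PadicAlgCl q) ^ m := map_zpow₀ L.val π m
    simp only [y, IntermediateField.coe_div, this, norm_div, norm_zpow]
  have hpm : 0 < ‖(π : PadicAlgCl q)‖ ^ m := zpow_pos hπ0 m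
  rw [inv_zpow] at hm1 hm2
  have hy1 : ‖(y : PadicAlgCl q)‖ ≤ 1 := by
    rw [hy, div_le_one hpm]
    exact (inv_le_inv₀ hpm hx0).mp hm1
  have hy2 : ‖(π : PadicAlgCl q)‖ < ‖(y : PadicAlgCl q)‖ := by
    rw [hy, lt_div_iff₀ hpm, ← zpow_one_add₀ hπ0.ne', add_comm]
    exact (inv_lt_inv₀ hx0 (zpow_pos hπ0 _)).mp hm2
  have hy3 : ‖(y : PadicAlgCl q)‖ = 1 := by
    rcases hy1.lt_or_eq with h | h
    · exact absurd (hπ.2.2 y h) (not_le.mpr hy2)
    · exact h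
  rw [hy, div_eq_one_iff_eq hpm.ne'] at hy3
  exact hy3

end Fermat.Agent.S55.LocField17
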