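/-
S55 / 13b-LOCFIELD-API (helper17): the ring of integers of a finite extension `L` of `ℚ_[q]`
inside `PadicAlgCl q`, as a `ValuationSubring L`: discrete valuation ring, finite residue field,
adically complete.
-/
import Mathlib
import Fermat.Prelude.Def_GaloisRep_CompletionBridge
import Fermat.Agent.S55.LocField17.Basic

set_option autoImplicit false

noncomputable section

namespace Fermat.Agent.S55.LocField17

open Module

variable {q : ℕ} [Fact q.Prime]

instance completeSpace (L : LF q) [FiniteDimensional ℚ_[q] L] : CompleteSpace L :=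
  FiniteDimensional.complete ℚ_[q] L

instance properSpace (L : LF q) [FiniteDimensional ℚ_[q] L] : ProperSpace L :=
  FiniteDimensional.proper ℚ_[q] L

/-- the ring of integers `{x ∈ L | ‖x‖ ≤ 1}`. -/
def intRing (L : LF q) : ValuationSubring L :=
  (padicIntegers q).comap L.val.toRingHom

theorem mem_intRing {L : LF q} {x : L} : x ∈ intRing L ↔ ‖(x : PadicAlgCl q)‖ ≤ 1 := by
  show ‖(x : PadicAlgCl q)‖₊ ≤ 1 ↔ _
  rw [← NNReal.coe_le_coe]
  rfl

theorem norm_le_one {L : LF q} (x : intRing L) : ‖((x : L) : PadicAlgCl q)‖ ≤ 1 :=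
  mem_intRing.mp x.2

theorem isUnit_iff {L : LF q} (x : intRing L) : IsUnit x ↔ ‖((x : L) : PadicAlgCl q)‖ = 1 := by
  constructor
  · rintro ⟨u, rfl⟩
    have h1 := norm_le_one (u : intRing L)
    have h2 := norm_le_one ((u⁻¹ : (intRing L)ˣ) : intRing L)
    have h3 : ((u : intRing L) : L) * (((u⁻¹ : (intRing L)ˣ) : intRing L) : L) = 1 := by
      rw [← MulMemClass.coe_mul, Units.mul_inv]
      rfl
    have h4 : ‖(((u : intRing L) : L) : PadicAlgCl q)‖ *
        ‖((((u⁻¹ : (intRing L)ˣ) : intRing L) : L) : PadicAlgCl q)‖ = 1 := by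
      rw [← norm_mul, ← IntermediateField.coe_mul, h3]
      simp
    nlinarith [norm_nonneg ((((u : intRing L) : L) : PadicAlgCl q)),
      norm_nonneg (((((u⁻¹ : (intRing L)ˣ) : intRing L) : L) : PadicAlgCl q))]
  · intro h
    have hx0 : (x : L) ≠ 0 := by
      intro h0
      rw [h0] at h
      simp at h
    have hinv : (x : L)⁻¹ ∈ intRing L := by
      rw [mem_intRing, IntermediateField.coe_inv, norm_inv, h, inv_one]
    refine ⟨⟨x, ⟨(x : L)⁻¹, hinv⟩, ?_, ?_⟩, rfl⟩
    · apply Subtype.ext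
      show (x : L) * (x : L)⁻¹ = 1
      exact mul_inv_cancel₀ hx0
    · apply Subtype.ext
      show (x : L)⁻¹ * (x : L) = 1
      exact inv_mul_cancel₀ hx0

theorem mem_maximalIdeal_iff {L : LF q} (x : intRing L) :
    x ∈ IsLocalRing.maximalIdeal (intRing L) ↔ ‖((x : L) : PadicAlgCl q)‖ < 1 := by
  rw [IsLocalRing.mem_maximalIdeal, mem_nonunits_iff, isUnit_iff]
  have := norm_le_one x
  constructor
  · intro h
    exact lt_of_le_of_ne this h
  · intro h
    exact h.ne

/-- a uniformizer, as an element of the ring of integers. -/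
def IsUnif.toInt {L : LF q} {π : L} (hπ : IsUnif L π) : intRing L :=
  ⟨π, mem_intRing.mpr hπ.2.1.le⟩

theorem IsUnif.irreducible {L : LF q} {π : L} (hπ : IsUnif L π) : Irreducible hπ.toInt := by
  refine ⟨?_, ?_⟩
  · rw [isUnit_iff]
    exact hπ.2.1.ne
  · intro a b hab
    by_contra hcon
    push Not at hcon
    obtain ⟨ha, hb⟩ := hcon
    have ha1 : ‖((a : L) : PadicAlgCl q)‖ < 1 := (mem_maximalIdeal_iff a).mp ha
    have hb1 : ‖((b : L) : PadicAlgCl q)‖ < 1 := (mem_maximalIdeal_iff b).mp hb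
    have ha2 := hπ.2.2 _ ha1
    have hb2 := hπ.2.2 _ hb1
    have h : ‖(π : PadicAlgCl q)‖ = ‖((a : L) : PadicAlgCl q)‖ * ‖((b : L) : PadicAlgCl q)‖ := by
      rw [← norm_mul, ← IntermediateField.coe_mul, ← MulMemClass.coe_mul, ← hab]
      rfl
    have h0 := hπ.norm_pos
    have h1 := hπ.2.1
    nlinarith [norm_nonneg ((a : L) : PadicAlgCl q), norm_nonneg ((b : L) : PadicAlgCl q)]

theorem IsUnif.associated_pow {L : LF q} {π : L} (hπ : IsUnif L π) {x : intRing L} (hx : x ≠ 0) :
    ∃ n : ℕ, Associated (hπ.toInt ^ n) x := by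
  have hx0 : (x : L) ≠ 0 := fun h => hx (Subtype.ext h)
  obtain ⟨m, hm⟩ := exists_zpow hπ (x : L) hx0
  have h0 := hπ.norm_pos
  have h1 := hπ.2.1
  have hm0 : 0 ≤ m := by
    rw [← zpow_le_one_iff_right_of_lt_one₀ h0 h1, ← hm]
    exact norm_le_one x
  obtain ⟨n, rfl⟩ := Int.eq_ofNat_of_zero_le hm0
  rw [zpow_natCast] at hm
  refine ⟨n, ?_⟩
  -- the unit `x / π ^ n`
  have hπ0 : (π : L) ≠ 0 := hπ.1
  have hu : (x : L) / π ^ n ∈ intRing L := by
    rw [mem_intRing, IntermediateField.coe_div, IntermediateField.coe_pow, norm_div, norm_pow, hm,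
      div_self (pow_pos h0 n).ne']
  have hu1 : IsUnit (⟨(x : L) / π ^ n, hu⟩ : intRing L) := by
    rw [isUnit_iff]
    show ‖(((x : L) / π ^ n : L) : PadicAlgCl q)‖ = 1
    rw [IntermediateField.coe_div, IntermediateField.coe_pow, norm_div, norm_pow, hm,
      div_self (pow_pos h0 n).ne']
  obtain ⟨u, hu2⟩ := hu1
  refine ⟨u, ?_⟩
  rw [hu2]
  apply Subtype.ext
  show (π : L) ^ n * ((x : L) / π ^ n) = x
  field_simp

instance isDiscreteValuationRing (L : LF q) [FiniteDimensional ℚ_[q] L] :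
    IsDiscreteValuationRing (intRing L) := by
  obtain ⟨π, hπ⟩ := exists_isUnif L
  exact IsDiscreteValuationRing.ofHasUnitMulPowIrreducibleFactorization
    ⟨hπ.toInt, hπ.irreducible, fun hx => hπ.associated_pow hx⟩

theorem IsUnif.maximalIdeal_eq {L : LF q} [FiniteDimensional ℚ_[q] L] {π : L} (hπ : IsUnif L π) :
    IsLocalRing.maximalIdeal (intRing L) = Ideal.span {hπ.toInt} :=
  (IsDiscreteValuationRing.irreducible_iff_uniformizer _).mp hπ.irreducible

/-! ### finiteness of the residue field (compactness) -/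

theorem isCompact_intRing (L : LF q) [FiniteDimensional ℚ_[q] L] :
    IsCompact ((intRing L : Set L)) := by
  have : (intRing L : Set L) = Metric.closedBall (0 : L) 1 := by
    ext x
    rw [SetLike.mem_coe, mem_intRing, Metric.mem_closedBall, dist_zero_right]
    rfl
  rw [this]
  exact isCompact_closedBall 0 1

instance compactSpace_intRing (L : LF q) [FiniteDimensional ℚ_[q] L] :
    CompactSpace (intRing L) :=
  isCompact_iff_compactSpace.mp (isCompact_intRing L)

theorem isOpen_maximalIdeal (L : LF q) :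
    IsOpen ((IsLocalRing.maximalIdeal (intRing L) : Set (intRing L))) := by
  have : (IsLocalRing.maximalIdeal (intRing L) : Set (intRing L)) =
      (fun x : intRing L => ‖((x : L) : PadicAlgCl q)‖) ⁻¹' Set.Iio 1 := by
    ext x
    rw [SetLike.mem_coe, mem_maximalIdeal_iff]
    rfl
  rw [this]
  apply IsOpen.preimage _ isOpen_Iio
  exact (continuous_norm.comp continuous_subtype_val).comp continuous_subtype_val

instance finite_residueField (L : LF q) [FiniteDimensional ℚ_[q] L] :
    Finite (IsLocalRing.ResidueField (intRing L)) := by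
  have h := AddSubgroup.quotient_finite_of_isOpen
    (IsLocalRing.maximalIdeal (intRing L)).toAddSubgroup (isOpen_maximalIdeal L)
  exact h

/-! ### adic completeness -/

theorem IsUnif.mem_maximalIdeal_pow_iff {L : LF q} [FiniteDimensional ℚ_[q] L] {π : L}
    (hπ : IsUnif L π) (n : ℕ) (x : intRing L) :
    x ∈ IsLocalRing.maximalIdeal (intRing L) ^ n ↔
      ‖((x : L) : PadicAlgCl q)‖ ≤ ‖(π : PadicAlgCl q)‖ ^ n := by
  have h0 := hπ.norm_pos
  rw [hπ.maximalIdeal_eq, Ideal.span_singleton_pow, Ideal.mem_span_singleton]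
  constructor
  · rintro ⟨y, rfl⟩
    have : (((hπ.toInt ^ n * y : intRing L) : L) : PadicAlgCl q) =
        (π : PadicAlgCl q) ^ n * ((y : L) : PadicAlgCl q) := rfl
    rw [this, norm_mul, norm_pow]
    exact mul_le_of_le_one_right (pow_nonneg h0.le n) (norm_le_one y)
  · intro h
    have hπ0 : (π : L) ≠ 0 := hπ.1
    have hy : (x : L) / π ^ n ∈ intRing L := by
      rw [mem_intRing, IntermediateField.coe_div, IntermediateField.coe_pow, norm_div, norm_pow,
        div_le_one (pow_pos h0 n)]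
      exact h
    refine ⟨⟨_, hy⟩, ?_⟩
    apply Subtype.ext
    show (x : L) = π ^ n * ((x : L) / π ^ n)
    field_simp

instance isAdicComplete (L : LF q) [FiniteDimensional ℚ_[q] L] :
    IsAdicComplete (IsLocalRing.maximalIdeal (intRing L)) (intRing L) := by
  obtain ⟨π, hπ⟩ := exists_isUnif L
  have h0 := hπ.norm_pos
  have h1 := hπ.2.1
  have hmem : ∀ (n : ℕ) (x y : intRing L),
      x ≡ y [SMOD (IsLocalRing.maximalIdeal (intRing L) ^ n • ⊤ : Submodule (intRing L) (intRing L))]
        ↔ ‖(((x - y : intRing L) : L) : PadicAlgCl q)‖ ≤ ‖(π : PadicAlgCl q)‖ ^ n := by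
    intro n x y
    rw [SModEq.sub_mem, smul_eq_mul, Ideal.mul_top, hπ.mem_maximalIdeal_pow_iff]
  have htend : Filter.Tendsto (fun n : ℕ => ‖(π : PadicAlgCl q)‖ ^ n) Filter.atTop (nhds 0) :=
    tendsto_pow_atTop_nhds_zero_of_lt_one h0.le h1
  have : IsHausdorff (IsLocalRing.maximalIdeal (intRing L)) (intRing L) := by
    refine ⟨fun x hx => ?_⟩
    have h2 : ∀ n : ℕ, ‖((x : L) : PadicAlgCl q)‖ ≤ ‖(π : PadicAlgCl q)‖ ^ n := by
      intro n
      have := (hmem n x 0).mp (hx n)
      simpa using this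
    have h3 : ‖((x : L) : PadicAlgCl q)‖ ≤ 0 := ge_of_tendsto' htend h2
    have h4 : ((x : L) : PadicAlgCl q) = 0 := norm_le_zero_iff.mp h3
    apply Subtype.ext
    apply Subtype.ext
    exact h4
  have : IsPrecomplete (IsLocalRing.maximalIdeal (intRing L)) (intRing L) := by
    refine ⟨fun f hf => ?_⟩
    have hd : ∀ m n : ℕ, m ≤ n → dist (f m) (f n) ≤ ‖(π : PadicAlgCl q)‖ ^ m := by
      intro m n hmn
      have := (hmem m (f m) (f n)).mp (hf hmn)
      exact this
    have hc : CauchySeq f := by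
      apply cauchySeq_of_le_tendsto_0 (fun n : ℕ => 2 * ‖(π : PadicAlgCl q)‖ ^ n)
      · intro n m N hn hm
        calc dist (f n) (f m) ≤ dist (f n) (f N) + dist (f N) (f m) := dist_triangle _ _ _
          _ ≤ ‖(π : PadicAlgCl q)‖ ^ N + ‖(π : PadicAlgCl q)‖ ^ N := by
              rw [dist_comm (f n) (f N)]
              exact add_le_add (hd N n hn) (hd N m hm)
          _ = 2 * ‖(π : PadicAlgCl q)‖ ^ N := by ring
      · simpa using htend.const_mul 2
    obtain ⟨x, hx⟩ := cauchySeq_tendsto_of_complete hc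
    refine ⟨x, fun n => ?_⟩
    rw [hmem]
    have h5 : Filter.Tendsto (fun m => dist (f n) (f m)) Filter.atTop (nhds (dist (f n) x)) :=
      (tendsto_const_nhds (x := f n)).dist hx
    have h6 : dist (f n) x ≤ ‖(π : PadicAlgCl q)‖ ^ n := by
      apply le_of_tendsto h5
      filter_upwards [Filter.eventually_ge_atTop n] with m hm
      exact hd n m hm
    exact h6
  exact ⟨⟩

instance henselianLocalRing (L : LF q) [FiniteDimensional ℚ_[q] L] :
    HenselianLocalRing (intRing L) where
  is_henselian f hf a₀ h₁ h₂ :=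
    HenselianRing.is_henselian (I := IsLocalRing.maximalIdeal (intRing L)) f hf a₀ h₁
      (h₂.map (Ideal.Quotient.mk _))

/-! ### automorphisms preserve the norm and the ring of integers -/

theorem norm_algEquiv_self {L : LF q} (σ : L ≃ₐ[ℚ_[q]] L) (x : L) :
    ‖((σ x : L) : PadicAlgCl q)‖ = ‖(x : PadicAlgCl q)‖ :=
  norm_algHom (L.val.comp (σ : L →ₐ[ℚ_[q]] L)) x

theorem algEquiv_mem_intRing {L : LF q} (σ : L ≃ₐ[ℚ_[q]] L) {x : L} (hx : x ∈ intRing L) :
    σ x ∈ intRing L := by
  rw [mem_intRing, norm_algEquiv_self]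
  exact mem_intRing.mp hx

/-- an element of the absolute Galois group stabilising `L` preserves the ring of integers. -/
theorem norm_map_eq {L : LF q} (σ : Gq q) (x : L) : ‖σ (x : PadicAlgCl q)‖ = ‖(x : PadicAlgCl q)‖ :=
  norm_algEquiv σ x

end Fermat.Agent.S55.LocField17
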