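/-
S55 / 20-LOC-MODEL (helper17): the fundamental identity `e * f = n` for a finite extension of
discrete valuation rings (model independent, Mathlib only), in a counting form:
`𝔪_R S = 𝔪_S ^ e`, `#k_S = (#k_R) ^ f`, `e * f = rank_R S`.
-/
import Mathlib

set_option autoImplicit false

namespace Fermat.Agent.S55.LocField17

open Module IsLocalRing

variable (R S : Type*) [CommRing R] [CommRing S] [IsDomain R] [IsDomain S]
  [IsDiscreteValuationRing R] [IsDiscreteValuationRing S] [Algebra R S] [Module.Finite R S]
  [Module.IsTorsionFree R S]

set_option linter.unusedSectionVars false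

theorem algebraMap_injective_of_torsionFree : Function.Injective (algebraMap R S) :=
  FaithfulSMul.algebraMap_injective R S

/-- the maximal ideal of `S` lies over the maximal ideal of `R`. -/
theorem maximalIdeal_liesOver : (maximalIdeal S).LiesOver (maximalIdeal R) := by
  constructor
  have hint : Algebra.IsIntegral R S := Algebra.IsIntegral.of_finite R S
  have hmax : ((maximalIdeal S).comap (algebraMap R S)).IsMaximal :=
    Ideal.isMaximal_comap_of_isIntegral_of_isMaximal (maximalIdeal S)
  exact (IsLocalRing.eq_maximalIdeal hmax).symm

theorem map_maximalIdeal_ne_bot : (maximalIdeal R).map (algebraMap R S) ≠ ⊥ := by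
  have h1 : maximalIdeal R ≠ ⊥ := IsDiscreteValuationRing.not_a_field R
  exact (Ideal.map_eq_bot_iff_of_injective (algebraMap_injective_of_torsionFree R S)).not.mpr h1

/-- **Fundamental identity** for a finite extension of discrete valuation rings. -/
theorem exists_ef :
    ∃ e f : ℕ, 0 < e ∧ 0 < f ∧
      (maximalIdeal R).map (algebraMap R S) = maximalIdeal S ^ e ∧
      Nat.card (ResidueField S) = Nat.card (ResidueField R) ^ f ∧
      e * f = finrank R S := by
  classical
  set p := maximalIdeal R with hp
  set P := maximalIdeal S with hP
  have hlo : P.LiesOver p := maximalIdeal_liesOver R S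
  have hmap : p.map (algebraMap R S) ≠ ⊥ := map_maximalIdeal_ne_bot R S
  have hP0 : P ≠ ⊥ := IsDiscreteValuationRing.not_a_field S
  -- the only prime over `p` is `P`
  have hmem : P ∈ p.primesOver S := ⟨inferInstance, hlo⟩
  let _ : Unique (p.primesOver S) :=
    { default := ⟨P, hmem⟩
      uniq := by
        rintro ⟨Q, hQ1, hQ2⟩
        apply Subtype.ext
        show Q = P
        have hQ0 : Q ≠ ⊥ := by
          rintro rfl
          have h1 := hQ2.over
          have h2 : Ideal.under R (⊥ : Ideal S) = ⊥ := by
            rw [Ideal.under_def, Ideal.comap_bot_of_injective _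
              (algebraMap_injective_of_torsionFree R S)]
          rw [h2] at h1
          exact IsDiscreteValuationRing.not_a_field R h1
        have hQm : Q.IsMaximal := hQ1.isMaximal hQ0
        exact IsLocalRing.eq_maximalIdeal hQm }
  have hsum := Ideal.sum_ramification_inertia_eq_finrank p S
  rw [Fintype.sum_unique] at hsum
  change P.ramificationIdx R * P.inertiaDeg R = finrank R S at hsum
  refine ⟨P.ramificationIdx R, P.inertiaDeg R, Ideal.ramificationIdx_pos P R,
    Ideal.inertiaDeg_pos P R, ?_, ?_, hsum⟩
  · -- `p S = P ^ e`
    obtain ⟨ϖ, hϖ⟩ := IsDiscreteValuationRing.exists_irreducible S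
    obtain ⟨k, hk⟩ := IsDiscreteValuationRing.ideal_eq_span_pow_irreducible hmap hϖ
    have hPϖ : P = Ideal.span {ϖ} := (IsDiscreteValuationRing.irreducible_iff_uniformizer ϖ).mp hϖ
    have hk' : p.map (algebraMap R S) = P ^ k := by
      rw [hk, hPϖ, Ideal.span_singleton_pow]
    have he := Ideal.IsDedekindDomain.ramificationIdx_eq_multiplicity p P hmap
    rw [he, hk']
    congr 1
    have hPprime : Prime P := Ideal.prime_of_isPrime hP0 inferInstance
    exact (multiplicity_pow_self hPprime.ne_zero hPprime.not_isUnit k).symm ▸ rfl
  · have h := Ideal.cardQuot_pow_inertiaDeg p P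
    rw [Submodule.cardQuot_apply, Submodule.cardQuot_apply] at h
    exact h.symm

end Fermat.Agent.S55.LocField17
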