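/-
S55 / 20-LOC-MODEL (helper17): elements of norm `≤ 1` of `PadicAlgCl q` are integral over `ℤ_[q]`
(coefficients of the minimal polynomial are bounded by the spectral norm).
-/
import Mathlib
import Fermat.Agent.S55.LocField17.Int

set_option autoImplicit false

noncomputable section

namespace Fermat.Agent.S55.LocField17

open Module Polynomial

variable {q : ℕ} [Fact q.Prime]

/-- the structure map `ℤ_[q] → PadicAlgCl q`. -/
def zqHom (q : ℕ) [Fact q.Prime] : ℤ_[q] →+* PadicAlgCl q :=
  (algebraMap ℚ_[q] (PadicAlgCl q)).comp (algebraMap ℤ_[q] ℚ_[q])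

theorem norm_coeff_minpoly_le_one {y : PadicAlgCl q} (hy : ‖y‖ ≤ 1) (n : ℕ) :
    ‖(minpoly ℚ_[q] y).coeff n‖ ≤ 1 := by
  set p := minpoly ℚ_[q] y with hp
  have hmonic : p.Monic := minpoly.monic (Algebra.IsIntegral.isIntegral y)
  rcases lt_trichotomy n p.natDegree with hn | hn | hn
  · have h1 : spectralValueTerms p n ≤ spectralValue p :=
      le_ciSup (spectralValueTerms_bddAbove p) n
    have h2 : spectralValue p = ‖y‖ := PadicAlgCl.spectralNorm_eq q y
    rw [spectralValueTerms_of_lt_natDegree p hn, h2] at h1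
    have h3 := h1.trans hy
    by_contra hcon
    push Not at hcon
    have hpos : (0 : ℝ) < 1 / ((p.natDegree : ℝ) - n) := by
      apply one_div_pos.mpr
      have : (n : ℝ) < p.natDegree := by exact_mod_cast hn
      linarith
    have := Real.one_lt_rpow hcon hpos
    linarith
  · rw [hn, hmonic.coeff_natDegree]
    simp
  · rw [coeff_eq_zero_of_natDegree_lt hn]
    simp

/-- elements of norm `≤ 1` are integral over `ℤ_[q]`, explicit form. -/
theorem exists_monic_of_norm_le_one {y : PadicAlgCl q} (hy : ‖y‖ ≤ 1) :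
    ∃ P : ℤ_[q][X], P.Monic ∧ eval₂ (zqHom q) y P = 0 := by
  set p := minpoly ℚ_[q] y with hp
  have hmonic : p.Monic := minpoly.monic (Algebra.IsIntegral.isIntegral y)
  have hl : p ∈ lifts (algebraMap ℤ_[q] ℚ_[q]) := by
    rw [lifts_iff_coeff_lifts]
    intro n
    exact ⟨⟨p.coeff n, norm_coeff_minpoly_le_one hy n⟩, rfl⟩
  obtain ⟨P, hP1, -, hP3⟩ := lifts_and_natDegree_eq_and_monic hl hmonic
  refine ⟨P, hP3, ?_⟩
  rw [zqHom, ← eval₂_map, hP1]
  exact minpoly.aeval ℚ_[q] y

end Fermat.Agent.S55.LocField17
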