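/-
S55 / 20-LOC-MODEL (helper17): towers `K ≤ L` of finite extensions of `ℚ_[q]` inside `PadicAlgCl q`:
the ring of integers of `L` is the integral closure of that of `K`, finite free of rank `[L:K]`,
and the fundamental identity `e * f = [L : K]` in norm / cardinality language.
-/
import Mathlib
import Fermat.Agent.S55.LocField17.Int
import Fermat.Agent.S55.LocField17.Integral
import Fermat.Agent.S55.LocField17.EF

set_option autoImplicit false
set_option linter.style.haveILetI false
set_option warn.classDefReducibility false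

noncomputable section

namespace Fermat.Agent.S55.LocField17

open Module Polynomial IsLocalRing

variable {q : ℕ} [Fact q.Prime] {K L : LF q}

/-- the inclusion of the rings of integers. -/
def intIncl (h : K ≤ L) : intRing K →+* intRing L where
  toFun x := ⟨IntermediateField.inclusion h x, mem_intRing.mpr (norm_le_one x)⟩
  map_one' := rfl
  map_mul' _ _ := rfl
  map_zero' := rfl
  map_add' _ _ := rfl

/-- `ℤ_[q] → 𝒪_K`. -/
def zqToInt (K : LF q) : ℤ_[q] →+* intRing K where
  toFun z := ⟨algebraMap ℚ_[q] K (z : ℚ_[q]), mem_intRing.mpr (by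
    show ‖((algebraMap ℚ_[q] K (z : ℚ_[q]) : K) : PadicAlgCl q)‖ ≤ 1
    have : ((algebraMap ℚ_[q] K (z : ℚ_[q]) : K) : PadicAlgCl q) =
      algebraMap ℚ_[q] (PadicAlgCl q) (z : ℚ_[q]) := rfl
    rw [this, PadicAlgCl.norm_extends]
    exact z.2)⟩
  map_one' := by apply Subtype.ext; simp
  map_mul' a b := by apply Subtype.ext; simp
  map_zero' := by apply Subtype.ext; simp
  map_add' a b := by apply Subtype.ext; simp

/-- every integer of `L` is integral over the integers of `K`. -/
theorem isIntegral_intIncl (h : K ≤ L) (y : intRing L) :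
    ∃ P : (intRing K)[X], P.Monic ∧
      eval₂ ((algebraMap (intRing L) L).comp (intIncl h)) (y : L) P = 0 := by
  obtain ⟨P, hP1, hP2⟩ := exists_monic_of_norm_le_one (norm_le_one y)
  refine ⟨P.map (zqToInt K), hP1.map _, ?_⟩
  rw [eval₂_map]
  apply Subtype.val_injective
  have h1 : (((eval₂ (((algebraMap (intRing L) L).comp (intIncl h)).comp (zqToInt K)) (y : L) P : L)) :
      PadicAlgCl q) = eval₂ (L.val.toRingHom.comp
        (((algebraMap (intRing L) L).comp (intIncl h)).comp (zqToInt K))) ((y : L) : PadicAlgCl q) P :=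
    (hom_eval₂ P _ L.val.toRingHom (y : L))
  rw [h1, ZeroMemClass.coe_zero, ← hP2]
  rfl

section Rel

variable [FiniteDimensional ℚ_[q] K] [FiniteDimensional ℚ_[q] L] (h : K ≤ L)

/-- the `K`-algebra structure of `L` for `K ≤ L`. -/
def relAlgebra (h : K ≤ L) : Algebra K L := (IntermediateField.inclusion h).toRingHom.toAlgebra

/-- the `𝒪_K`-algebra structure of `𝒪_L`. -/
def intAlgebra (h : K ≤ L) : Algebra (intRing K) (intRing L) := (intIncl h).toAlgebra

/-- the `𝒪_K`-algebra structure of `L`. -/
def intAlgebra' (h : K ≤ L) : Algebra (intRing K) L :=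
  ((algebraMap (intRing L) L).comp (intIncl h)).toAlgebra

theorem exists_ef_int :
    letI := intAlgebra h
    Module.Finite (intRing K) (intRing L) ∧ Module.IsTorsionFree (intRing K) (intRing L) ∧
      finrank (intRing K) (intRing L) * finrank ℚ_[q] K = finrank ℚ_[q] L := by
  letI a1 := relAlgebra h
  letI a2 := intAlgebra h
  letI a3 := intAlgebra' h
  haveI t1 : IsScalarTower (intRing K) (intRing L) L := IsScalarTower.of_algebraMap_eq (fun _ => rfl)
  haveI t2 : IsScalarTower (intRing K) K L := IsScalarTower.of_algebraMap_eq (fun _ => rfl)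
  haveI t3 : IsScalarTower ℚ_[q] K L := IsScalarTower.of_algebraMap_eq (fun _ => rfl)
  haveI : FiniteDimensional K L := FiniteDimensional.right ℚ_[q] K L
  haveI : IsIntegralClosure (intRing L) (intRing K) L :=
    { algebraMap_injective := Subtype.val_injective
      isIntegral_iff := by
        intro x
        constructor
        · intro hx
          have hx' : IsIntegral (intRing L) x := hx.tower_top
          exact IsIntegrallyClosed.isIntegral_iff.mp hx'
        · rintro ⟨y, rfl⟩
          obtain ⟨P, hP1, hP2⟩ := isIntegral_intIncl h y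
          exact ⟨P, hP1, hP2⟩ }
  haveI : Module.IsTorsionFree (intRing K) L := by
    have hinj : Function.Injective (algebraMap (intRing K) L) := by
      intro a b hab
      apply Subtype.ext
      apply Subtype.ext
      have := congrArg (fun z : L => (z : PadicAlgCl q)) hab
      exact this
    exact Module.isTorsionFree_iff_algebraMap_injective.mpr hinj
  refine ⟨IsIntegralClosure.finite (intRing K) K L (intRing L),
    IsIntegralClosure.isTorsionFree (intRing K) L, ?_⟩
  rw [IsIntegralClosure.rank (intRing K) K L (intRing L), mul_comm]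
  exact Module.finrank_mul_finrank ℚ_[q] K L

/-- **Fundamental identity** `e * f = [L : K]` for `K ≤ L` finite over `ℚ_[q]`, in norm and
cardinality language: `‖π_K‖ = ‖π_L‖ ^ e`, `#k_L = (#k_K) ^ f`, `e * f * [K:ℚ_q] = [L:ℚ_q]`. -/
theorem exists_ef_rel (h : K ≤ L) :
    ∃ e f : ℕ, 0 < e ∧ 0 < f ∧
      (∀ (πK : K) (πL : L), IsUnif K πK → IsUnif L πL →
        ‖(πK : PadicAlgCl q)‖ = ‖(πL : PadicAlgCl q)‖ ^ e) ∧
      Nat.card (ResidueField (intRing L)) = Nat.card (ResidueField (intRing K)) ^ f ∧
      e * f * finrank ℚ_[q] K = finrank ℚ_[q] L := by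
  letI := intAlgebra h
  obtain ⟨hfin, htf, hrank⟩ := exists_ef_int h
  obtain ⟨e, f, he, hf, hmap, hcard, hef⟩ := exists_ef (intRing K) (intRing L)
  refine ⟨e, f, he, hf, ?_, hcard, by rw [hef]; exact hrank⟩
  intro πK πL hπK hπL
  apply le_antisymm
  · have h1 : intIncl h hπK.toInt ∈ (maximalIdeal (intRing K)).map (algebraMap (intRing K) (intRing L)) := by
      apply Ideal.mem_map_of_mem
      rw [hπK.maximalIdeal_eq]
      exact Ideal.mem_span_singleton_self _
    rw [hmap, hπL.mem_maximalIdeal_pow_iff] at h1
    exact h1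
  · have h1 : hπL.toInt ^ e ∈ maximalIdeal (intRing L) ^ e :=
      Ideal.pow_mem_pow (by rw [hπL.maximalIdeal_eq]; exact Ideal.mem_span_singleton_self _) e
    rw [← hmap, hπK.maximalIdeal_eq, Ideal.map_span, Set.image_singleton,
      Ideal.mem_span_singleton] at h1
    obtain ⟨c, hc⟩ := h1
    have h2 : ((((hπL.toInt ^ e : intRing L) : L)) : PadicAlgCl q) =
        (πK : PadicAlgCl q) * ((c : L) : PadicAlgCl q) := by
      rw [hc]
      rfl
    have h3 : ((((hπL.toInt ^ e : intRing L) : L)) : PadicAlgCl q) = (πL : PadicAlgCl q) ^ e := rfl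
    rw [h3] at h2
    have h4 := congrArg norm h2
    rw [norm_pow, norm_mul] at h4
    rw [h4]
    exact mul_le_of_le_one_right (norm_nonneg _) (norm_le_one c)

end Rel

end Fermat.Agent.S55.LocField17
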