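/-
S55 / 20-LOC-MODEL (helper17): the normalised valuation `ord_K : K → ℤ` of a finite extension `K`
of `ℚ_[q]` inside `PadicAlgCl q`, ramification index and residue degree of `K ≤ L` as numbers,
`ord_L = e · ord_K` on `K`, `‖N_{L/K} y‖ = ‖y‖ ^ [L:K]`, `ord_K (N_{L/K} y) = f · ord_L y`.
-/
import Mathlib
import Fermat.Agent.S55.LocField17.Tower

set_option autoImplicit false
set_option linter.style.haveILetI false

noncomputable section

namespace Fermat.Agent.S55.LocField17

open Module IsLocalRing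

variable {q : ℕ} [Fact q.Prime]

section Ord

variable (K : LF q) [FiniteDimensional ℚ_[q] K]

/-- a chosen uniformizer. -/
def unif : K := (exists_isUnif K).choose

theorem isUnif_unif : IsUnif K (unif K) := (exists_isUnif K).choose_spec

/-- the norm of a uniformizer (independent of the uniformizer). -/
def unifNorm : ℝ := ‖(unif K : PadicAlgCl q)‖

variable {K}

theorem IsUnif.norm_eq {π : K} (hπ : IsUnif K π) : ‖(π : PadicAlgCl q)‖ = unifNorm K :=
  le_antisymm ((isUnif_unif K).2.2 π hπ.2.1) (hπ.2.2 _ (isUnif_unif K).2.1)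

variable (K)

theorem unifNorm_pos : 0 < unifNorm K := (isUnif_unif K).norm_pos

theorem unifNorm_lt_one : unifNorm K < 1 := (isUnif_unif K).2.1

theorem zpow_unifNorm_injective : Function.Injective (fun m : ℤ => unifNorm K ^ m) :=
  zpow_right_injective₀ (unifNorm_pos K) (unifNorm_lt_one K).ne

open Classical in
/-- the normalised valuation (`ord 0 = 0` by convention). -/
def ord (x : K) : ℤ :=
  if hx : x = 0 then 0 else (exists_zpow (isUnif_unif K) x hx).choose

variable {K}

theorem norm_eq_zpow_ord {x : K} (hx : x ≠ 0) : ‖(x : PadicAlgCl q)‖ = unifNorm K ^ ord K x := by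
  rw [ord, dif_neg hx]
  exact (exists_zpow (isUnif_unif K) x hx).choose_spec

theorem ord_eq_iff {x : K} (hx : x ≠ 0) (m : ℤ) :
    ord K x = m ↔ ‖(x : PadicAlgCl q)‖ = unifNorm K ^ m := by
  rw [norm_eq_zpow_ord hx]
  exact ⟨fun h => by rw [h], fun h => zpow_unifNorm_injective K h⟩

theorem ord_mul {x y : K} (hx : x ≠ 0) (hy : y ≠ 0) : ord K (x * y) = ord K x + ord K y := by
  rw [ord_eq_iff (mul_ne_zero hx hy), IntermediateField.coe_mul, norm_mul, norm_eq_zpow_ord hx,
    norm_eq_zpow_ord hy, zpow_add₀ (unifNorm_pos K).ne']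

theorem ord_one : ord K (1 : K) = 0 := by
  rw [ord_eq_iff (one_ne_zero : (1 : K) ≠ 0)]
  simp

theorem ord_inv {x : K} (hx : x ≠ 0) : ord K x⁻¹ = -ord K x := by
  rw [ord_eq_iff (inv_ne_zero hx), IntermediateField.coe_inv, norm_inv, norm_eq_zpow_ord hx,
    zpow_neg]

theorem ord_pow {x : K} (hx : x ≠ 0) (n : ℕ) : ord K (x ^ n) = n * ord K x := by
  rw [ord_eq_iff (pow_ne_zero n hx), IntermediateField.coe_pow, norm_pow, norm_eq_zpow_ord hx,
    ← zpow_natCast, ← zpow_mul, mul_comm]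

theorem IsUnif.ord_eq_one {π : K} (hπ : IsUnif K π) : ord K π = 1 := by
  rw [ord_eq_iff hπ.1, hπ.norm_eq, zpow_one]

theorem ord_eq_zero_iff {x : K} (hx : x ≠ 0) : ord K x = 0 ↔ ‖(x : PadicAlgCl q)‖ = 1 := by
  rw [ord_eq_iff hx, zpow_zero]

theorem ord_nonneg_iff {x : K} (hx : x ≠ 0) : 0 ≤ ord K x ↔ ‖(x : PadicAlgCl q)‖ ≤ 1 := by
  rw [norm_eq_zpow_ord hx]
  exact (zpow_le_one_iff_right_of_lt_one₀ (unifNorm_pos K) (unifNorm_lt_one K)).symm

theorem ord_pos_iff {x : K} (hx : x ≠ 0) : 0 < ord K x ↔ ‖(x : PadicAlgCl q)‖ < 1 := by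
  rw [norm_eq_zpow_ord hx]
  exact (zpow_lt_one_iff_right_of_lt_one₀ (unifNorm_pos K) (unifNorm_lt_one K)).symm

/-- `ord` is surjective. -/
theorem ord_unif_zpow (m : ℤ) : ord K ((unif K) ^ m) = m := by
  have h0 : unif K ≠ 0 := (isUnif_unif K).1
  rw [ord_eq_iff (zpow_ne_zero m h0)]
  have : (((unif K) ^ m : K) : PadicAlgCl q) = (unif K : PadicAlgCl q) ^ m := map_zpow₀ K.val _ m
  rw [this, norm_zpow]
  rfl

end Ord

section Rel

variable {K L : LF q} [FiniteDimensional ℚ_[q] K] [FiniteDimensional ℚ_[q] L]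

/-- the ramification index of `K ≤ L`. -/
def ramIdx (h : K ≤ L) : ℕ := (exists_ef_rel h).choose

/-- the residue degree of `K ≤ L`. -/
def resDeg (h : K ≤ L) : ℕ := (exists_ef_rel h).choose_spec.choose

theorem ramIdx_pos (h : K ≤ L) : 0 < ramIdx h := (exists_ef_rel h).choose_spec.choose_spec.1

theorem resDeg_pos (h : K ≤ L) : 0 < resDeg h := (exists_ef_rel h).choose_spec.choose_spec.2.1

theorem unifNorm_eq_pow (h : K ≤ L) : unifNorm K = unifNorm L ^ ramIdx h :=
  (exists_ef_rel h).choose_spec.choose_spec.2.2.1 _ _ (isUnif_unif K) (isUnif_unif L)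

theorem card_residueField_eq_pow (h : K ≤ L) :
    Nat.card (ResidueField (intRing L)) = Nat.card (ResidueField (intRing K)) ^ resDeg h :=
  (exists_ef_rel h).choose_spec.choose_spec.2.2.2.1

theorem ramIdx_mul_resDeg_mul (h : K ≤ L) :
    ramIdx h * resDeg h * finrank ℚ_[q] K = finrank ℚ_[q] L :=
  (exists_ef_rel h).choose_spec.choose_spec.2.2.2.2

/-- `ord_L = e · ord_K` on `K`. -/
theorem ord_inclusion (h : K ≤ L) (x : K) :
    ord L (IntermediateField.inclusion h x) = ramIdx h * ord K x := by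
  by_cases hx : x = 0
  · subst hx
    simp [ord]
  have hx' : IntermediateField.inclusion h x ≠ 0 := by
    rw [Ne, map_eq_zero]
    exact hx
  rw [ord_eq_iff hx']
  have : ((IntermediateField.inclusion h x : L) : PadicAlgCl q) = (x : PadicAlgCl q) := rfl
  rw [this, norm_eq_zpow_ord hx, unifNorm_eq_pow h, ← zpow_natCast, ← zpow_mul]

/-- `‖N_{L/K} y‖ = ‖y‖ ^ [L : K]` (relative norm, `L` a `K`-algebra via `relAlgebra h`). -/
theorem norm_relNorm (h : K ≤ L) (y : L) :
    letI := relAlgebra h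
    ‖((Algebra.norm K y : K) : PadicAlgCl q)‖ = ‖(y : PadicAlgCl q)‖ ^ finrank K L := by
  letI := relAlgebra h
  haveI t3 : IsScalarTower ℚ_[q] K L := IsScalarTower.of_algebraMap_eq (fun _ => rfl)
  haveI t4 : IsScalarTower K L (PadicAlgCl q) := IsScalarTower.of_algebraMap_eq (fun _ => rfl)
  haveI : FiniteDimensional K L := FiniteDimensional.right ℚ_[q] K L
  have h1 := Algebra.norm_eq_prod_embeddings K (PadicAlgCl q) y
  have h2 : ((Algebra.norm K y : K) : PadicAlgCl q) =
      algebraMap K (PadicAlgCl q) (Algebra.norm K y) := rfl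
  rw [h2, h1, norm_prod]
  have h3 : ∀ σ : L →ₐ[K] PadicAlgCl q, ‖σ y‖ = ‖(y : PadicAlgCl q)‖ := fun σ =>
    norm_algHom (σ.restrictScalars ℚ_[q]) y
  simp only [h3]
  rw [Finset.prod_const, Finset.card_univ, AlgHom.card_of_splits]
  intro s
  exact IsAlgClosed.splits _

theorem finrank_rel_eq (h : K ≤ L) :
    letI := relAlgebra h
    finrank K L = ramIdx h * resDeg h := by
  letI := relAlgebra h
  haveI t3 : IsScalarTower ℚ_[q] K L := IsScalarTower.of_algebraMap_eq (fun _ => rfl)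
  have h1 := Module.finrank_mul_finrank ℚ_[q] K L
  have h2 := ramIdx_mul_resDeg_mul h
  have h3 : 0 < finrank ℚ_[q] K := finrank_pos
  rw [← h1, mul_comm] at h2
  exact (Nat.eq_of_mul_eq_mul_left h3 h2).symm

/-- `ord_K (N_{L/K} y) = f · ord_L y`. -/
theorem ord_relNorm (h : K ≤ L) (y : L) (hy : y ≠ 0) :
    letI := relAlgebra h
    ord K (Algebra.norm K y) = resDeg h * ord L y := by
  letI := relAlgebra h
  haveI t3 : IsScalarTower ℚ_[q] K L := IsScalarTower.of_algebraMap_eq (fun _ => rfl)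
  haveI : FiniteDimensional K L := FiniteDimensional.right ℚ_[q] K L
  haveI : Module.Free K L := Module.Free.of_divisionRing K L
  have hN : Algebra.norm K y ≠ 0 := Algebra.norm_ne_zero_iff.mpr hy
  have h1 := norm_relNorm h y
  rw [norm_eq_zpow_ord hN, norm_eq_zpow_ord hy, finrank_rel_eq h, unifNorm_eq_pow h,
    ← zpow_natCast, ← zpow_natCast, ← zpow_mul, ← zpow_mul] at h1
  have h2 := zpow_unifNorm_injective L h1
  have he : (0 : ℤ) < ramIdx h := by exact_mod_cast ramIdx_pos h
  push_cast at h2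
  have h3 : (ramIdx h : ℤ) * ord K (Algebra.norm K y) = (ramIdx h : ℤ) * (resDeg h * ord L y) := by
    rw [h2]; ring
  exact mul_left_cancel₀ he.ne' h3

end Rel

end Fermat.Agent.S55.LocField17
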