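/-
S55 / 20-LOC-MODEL (helper17): ADAPTER into helper95's `LocH95`.
For `K ≤ L` finite extensions of `ℚ_[q]` inside `PadicAlgCl q` (`L` a `K`-algebra via
`relAlgebra h`) we produce `LocH95.LocFieldDatum K (nnv L)`, where `nnv L : Valuation L ℝ≥0` is the
norm of `PadicAlgCl q`, and quote the consequences (cyclic `L/K`): `[Kˣ : N Lˣ] = [L : K]`.
-/
import Mathlib
import Fermat.Agent.S55.LocField17.Ord
import Fermat.Agent.S55.LocH95.Herbrand

set_option autoImplicit false
set_option linter.style.haveILetI false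
set_option linter.unusedSectionVars false

noncomputable section

namespace Fermat.Agent.S55.LocField17

open Module IsLocalRing NNReal

variable {q : ℕ} [Fact q.Prime]

/-- the norm of `PadicAlgCl q` as a valuation of `L` with values in `ℝ≥0`. -/
def nnv (L : LF q) : Valuation L ℝ≥0 :=
  (NormedField.valuation (K := PadicAlgCl q)).comap (algebraMap L (PadicAlgCl q))

theorem nnv_apply (L : LF q) (x : L) : nnv L x = ‖(x : PadicAlgCl q)‖₊ := rfl

theorem coe_nnv (L : LF q) (x : L) : ((nnv L x : ℝ≥0) : ℝ) = ‖(x : PadicAlgCl q)‖ := rfl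

theorem nnv_le_iff {L : LF q} (x y : L) :
    nnv L x ≤ nnv L y ↔ ‖(x : PadicAlgCl q)‖ ≤ ‖(y : PadicAlgCl q)‖ := by
  rw [← NNReal.coe_le_coe]; rfl

theorem nnv_le_one_iff {L : LF q} (x : L) : nnv L x ≤ 1 ↔ x ∈ intRing L := by
  rw [mem_intRing, ← NNReal.coe_le_coe]; rfl

theorem nnv_lt_one_iff {L : LF q} (x : L) : nnv L x < 1 ↔ ‖(x : PadicAlgCl q)‖ < 1 := by
  rw [← NNReal.coe_lt_coe]; rfl

theorem nnv_eq_one_iff {L : LF q} (x : L) : nnv L x = 1 ↔ ‖(x : PadicAlgCl q)‖ = 1 := by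
  rw [← NNReal.coe_inj]; rfl

section Rel

variable {K L : LF q}

theorem isScalarTower_rel (h : K ≤ L) :
    letI := relAlgebra h
    IsScalarTower ℚ_[q] K L := by
  letI := relAlgebra h
  exact IsScalarTower.of_algebraMap_eq (fun _ => rfl)

theorem finiteDimensional_rel [FiniteDimensional ℚ_[q] L] (h : K ≤ L) :
    letI := relAlgebra h
    FiniteDimensional K L := by
  letI := relAlgebra h
  haveI := isScalarTower_rel h
  exact FiniteDimensional.right ℚ_[q] K L

theorem algebraMap_rel_coe (h : K ≤ L) (x : K) :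
    letI := relAlgebra h
    ((algebraMap K L x : L) : PadicAlgCl q) = (x : PadicAlgCl q) := rfl

/-- `K`-automorphisms of `L` are isometries. -/
theorem norm_relAlgEquiv (h : K ≤ L) :
    letI := relAlgebra h
    ∀ (σ : L ≃ₐ[K] L) (x : L), ‖((σ x : L) : PadicAlgCl q)‖ = ‖(x : PadicAlgCl q)‖ := by
  letI := relAlgebra h
  haveI := isScalarTower_rel h
  intro σ x
  exact norm_algEquiv_self (σ.restrictScalars ℚ_[q]) x

theorem norm_natCast_q (L : LF q) :
    ‖(((q : ℕ) : L) : PadicAlgCl q)‖ = ‖((q : ℚ_[q]) : PadicAlgCl q)‖ := by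
  congr 1

theorem norm_natCast_q_lt_one (L : LF q) : ‖(((q : ℕ) : L) : PadicAlgCl q)‖ < 1 := by
  rw [norm_natCast_q]; exact norm_q_lt_one

theorem natCast_q_ne_zero (L : LF q) : ((q : ℕ) : L) ≠ 0 :=
  Nat.cast_ne_zero.mpr (Fact.out : q.Prime).ne_zero

theorem norm_coe_eq (K : LF q) (x : K) : ‖(x : PadicAlgCl q)‖ = ‖x‖ := rfl

theorem coe_nnv' (L : LF q) (x : L) : ((nnv L x : ℝ≥0) : ℝ) = ‖x‖ := rfl

/-- ultrametric tail bound for a series with `‖a n‖ ≤ r ^ n`, `r < 1`, in a complete `K`. -/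
theorem exists_sum_of_geometric (K : LF q) [FiniteDimensional ℚ_[q] K] {r : ℝ} (hr0 : 0 ≤ r)
    (hr1 : r < 1) (a : ℕ → K) (ha : ∀ n, ‖a n‖ ≤ r ^ n) :
    ∃ s : K, ∀ N, ‖s - ∑ n ∈ Finset.range N, a n‖ ≤ r ^ N := by
  have hsum : Summable a := by
    refine Summable.of_norm_bounded (summable_geometric_of_lt_one hr0 hr1) ?_
    intro n
    exact ha n
  refine ⟨∑' n, a n, fun N => ?_⟩
  have hpart : ∀ M, ‖(∑ n ∈ Finset.range M, a (n + N) : K)‖ ≤ r ^ N := by
    intro M
    by_cases hM : (Finset.range M).Nonempty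
    · obtain ⟨i, _, hi⟩ := IsUltrametricDist.exists_norm_finsetSum_le_of_nonempty hM
        (fun n => a (n + N))
      refine hi.trans ((ha (i + N)).trans ?_)
      exact pow_le_pow_of_le_one hr0 hr1.le (Nat.le_add_left N i)
    · rw [Finset.not_nonempty_iff_eq_empty] at hM
      rw [hM, Finset.sum_empty, norm_zero]
      exact pow_nonneg hr0 N
  have hs2 : HasSum (fun n => a (n + N)) (∑' n, a n - ∑ n ∈ Finset.range N, a n) := by
    exact (_root_.hasSum_nat_add_iff' N).2 hsum.hasSum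
  have hlim := hs2.tendsto_sum_nat
  have hcl : IsClosed {y : K | ‖y‖ ≤ r ^ N} := isClosed_le continuous_norm continuous_const
  exact hcl.mem_of_tendsto hlim (Filter.Eventually.of_forall hpart)

/-- finite `ε`-nets of the unit ball of `L`. -/
theorem exists_finset_net (L : LF q) [FiniteDimensional ℚ_[q] L] {ε : ℝ} (hε : 0 < ε) :
    ∃ T : Finset L, ∀ x : L, ‖x‖ ≤ 1 → ∃ t ∈ T, ‖x - t‖ ≤ ε := by
  have hc : IsCompact (Metric.closedBall (0 : L) 1) := isCompact_closedBall 0 1
  obtain ⟨t, -, htf, hcov⟩ := hc.finite_cover_balls hε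
  refine ⟨htf.toFinset, fun x hx => ?_⟩
  have hx' : x ∈ Metric.closedBall (0 : L) 1 := by
    rw [mem_closedBall_zero_iff]; exact hx
  obtain ⟨y, hy, hxy⟩ := Set.mem_iUnion₂.1 (hcov hx')
  refine ⟨y, htf.mem_toFinset.2 hy, ?_⟩
  rw [Metric.mem_ball, dist_eq_norm] at hxy
  exact hxy.le

variable [FiniteDimensional ℚ_[q] K] [FiniteDimensional ℚ_[q] L]

/-- **the `LocH95` datum of `K ≤ L`** (`c = q`, `π = unif L`). -/
def locFieldDatum (h : K ≤ L) :
    letI := relAlgebra h
    LocH95.LocFieldDatum K (nnv L) := by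
  letI := relAlgebra h
  have hq1 : ‖((q : ℕ) : K)‖ < 1 := norm_natCast_q_lt_one K
  have hq0 : (0 : ℝ) ≤ ‖((q : ℕ) : K)‖ := norm_nonneg _
  exact
  { v_smul := fun σ x => by
      apply NNReal.coe_injective
      exact norm_relAlgEquiv h σ x
    c := ((q : ℕ) : K)
    c_ne := natCast_q_ne_zero K
    c_lt := by
      rw [nnv_lt_one_iff]
      exact norm_natCast_q_lt_one K
    arch := fun x => by
      obtain ⟨n, hn⟩ := exists_pow_lt_of_lt_one (show (0 : ℝ) < 1 / (‖x‖ + 1) by positivity) hq1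
      refine ⟨n, ?_⟩
      rw [← NNReal.coe_le_coe, coe_nnv', norm_mul, norm_pow]
      have h1 : ‖(algebraMap K L ((q : ℕ) : K))‖ = ‖((q : ℕ) : K)‖ := rfl
      rw [h1]
      have h2 : ‖((q : ℕ) : K)‖ ^ n * ‖x‖ ≤ 1 / (‖x‖ + 1) * ‖x‖ :=
        mul_le_mul_of_nonneg_right hn.le (norm_nonneg _)
      refine h2.trans ?_
      rw [NNReal.coe_one, div_mul_eq_mul_div, one_mul, div_le_one (by positivity)]
      linarith
    complete := fun a ha => by
      have ha' : ∀ n, ‖a n‖ ≤ ‖((q : ℕ) : K)‖ ^ n := by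
        intro n
        have := ha n
        rw [← NNReal.coe_le_coe] at this
        exact this
      obtain ⟨s, hs⟩ := exists_sum_of_geometric K hq0 hq1 a ha'
      refine ⟨s, fun N => ?_⟩
      rw [← NNReal.coe_le_coe]
      exact hs N
    fin := fun m => by
      obtain ⟨T, hT⟩ := exists_finset_net L
        (show 0 < ‖((q : ℕ) : K)‖ ^ m from
          pow_pos (norm_pos_iff.2 (natCast_q_ne_zero K)) m)
      refine ⟨T, fun x hx => ?_⟩
      rw [← NNReal.coe_le_coe] at hx
      obtain ⟨t, ht, hxt⟩ := hT x hx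
      refine ⟨t, ht, ?_⟩
      rw [← NNReal.coe_le_coe]
      exact hxt
    π := unif L
    π_lt := by
      rw [nnv_lt_one_iff]
      exact (isUnif_unif L).2.1
    π_ne := (isUnif_unif L).1
    hval := fun x hx => by
      refine ⟨ord L x, ?_⟩
      apply NNReal.coe_injective
      rw [NNReal.coe_zpow]
      exact norm_eq_zpow_ord hx }

theorem locFieldDatum_c (h : K ≤ L) :
    letI := relAlgebra h
    (locFieldDatum h).c = ((q : ℕ) : K) := rfl

theorem locFieldDatum_π (h : K ≤ L) :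
    letI := relAlgebra h
    (locFieldDatum h).π = unif L := rfl

/-- **norm index of a cyclic extension** `K ≤ L` of finite extensions of `ℚ_[q]`:
`[Kˣ : N_{L/K} Lˣ] = [L : K]`. -/
theorem index_norm_range_rel (h : K ≤ L) :
    letI := relAlgebra h
    ∀ [IsGalois K L] (σ₀ : L ≃ₐ[K] L), (∀ τ, τ ∈ Subgroup.zpowers σ₀) →
      (Units.map (Algebra.norm K : L →* K)).range.index = Module.finrank K L := by
  letI := relAlgebra h
  haveI := finiteDimensional_rel h
  intro _ σ₀ hσ
  exact LocH95.index_norm_range (locFieldDatum h) σ₀ hσ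

theorem card_units_quot_norm_rel (h : K ≤ L) :
    letI := relAlgebra h
    ∀ [IsGalois K L] (σ₀ : L ≃ₐ[K] L), (∀ τ, τ ∈ Subgroup.zpowers σ₀) →
      Nat.card (Kˣ ⧸ (Units.map (Algebra.norm K : L →* K)).range) = Module.finrank K L := by
  letI := relAlgebra h
  haveI := finiteDimensional_rel h
  intro _ σ₀ hσ
  exact LocH95.card_units_quot_norm (locFieldDatum h) σ₀ hσ

/-- Herbrand quotient of the units `{‖u‖ = 1}` of a cyclic `L/K` is `1`. -/
theorem unitsPairU_isDefined_rel (h : K ≤ L) :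
    letI := relAlgebra h
    haveI := finiteDimensional_rel h
    ∀ [IsGalois K L] (σ₀ : L ≃ₐ[K] L), (∀ τ, τ ∈ Subgroup.zpowers σ₀) →
      ((locFieldDatum h).toLocDatum.unitsPairU σ₀).IsDefined ∧
        ((locFieldDatum h).toLocDatum.unitsPairU σ₀).q = 1 := by
  letI := relAlgebra h
  haveI := finiteDimensional_rel h
  intro _ σ₀ hσ
  exact LocH95.LocFieldDatum.unitsPairU_isDefined (locFieldDatum h) σ₀ hσ

end Rel

end Fermat.Agent.S55.LocField17
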