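/-
S55 / 20b-LOC-MODEL-UNR (helper17): BRIDGE between the numbers `ramIdx / resDeg / ord` of
`LocField17.Ord` and helper93's `UnrExt93` (`resCard`, `unr q K n`).
-/
import Mathlib
import Fermat.Agent.S55.LocField17.Ord
import Fermat.Agent.S55.UnrExt93.BaseChange

set_option autoImplicit false
set_option linter.style.haveILetI false
set_option linter.unusedSectionVars false

noncomputable section

namespace Fermat.Agent.S55.LocField17

open Module IsLocalRing Fermat.Agent.S55.UnrExt93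

variable {q : ℕ} [Fact q.Prime]

/-! ### (B1) the two residue fields have the same cardinality -/

/-- `O_K → O_Ω`. -/
def intToOΩ (K : LF q) : intRing K →+* OΩ q where
  toFun x := ⟨((x : K) : PadicAlgCl q), (mem_OΩ q).2 (norm_le_one x)⟩
  map_one' := rfl
  map_mul' _ _ := rfl
  map_zero' := rfl
  map_add' _ _ := rfl

/-- `O_K → k_Ω`. -/
def intToKΩ (K : LF q) : intRing K →+* kΩ q := (IsLocalRing.residue (OΩ q)).comp (intToOΩ K)

theorem intToKΩ_apply (K : LF q) (x : intRing K) :
    intToKΩ K x = red q ((x : K) : PadicAlgCl q) := by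
  rw [red_of_le (norm_le_one x)]
  rfl

theorem ker_intToKΩ (K : LF q) : RingHom.ker (intToKΩ K) = maximalIdeal (intRing K) := by
  ext x
  rw [RingHom.mem_ker, intToKΩ_apply, red_eq_zero_iff (norm_le_one x), mem_maximalIdeal_iff]

theorem range_intToKΩ (K : LF q) :
    ((intToKΩ K).range : Set (kΩ q)) = (resField q K : Set (kΩ q)) := by
  ext a
  constructor
  · rintro ⟨x, rfl⟩
    rw [intToKΩ_apply]
    exact red_mem_resField (x : K).2 (norm_le_one x)
  · intro ha
    obtain ⟨x, hxK, hx, rfl⟩ := mem_resField.1 ha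
    refine ⟨⟨⟨x, hxK⟩, mem_intRing.2 hx⟩, ?_⟩
    rw [intToKΩ_apply]

theorem resCard_eq (K : LF q) : resCard q K = Nat.card (ResidueField (intRing K)) := by
  unfold resCard
  have e1 : (intRing K ⧸ RingHom.ker (intToKΩ K)) ≃+* (intToKΩ K).range :=
    RingHom.quotientKerEquivRange (intToKΩ K)
  have e2 : (intRing K ⧸ RingHom.ker (intToKΩ K)) ≃+* ResidueField (intRing K) :=
    Ideal.quotEquivOfEq (ker_intToKΩ K)
  have e3 : ((intToKΩ K).range : Set (kΩ q)) ≃ (resField q K : Set (kΩ q)) :=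
    Equiv.setCongr (range_intToKΩ K)
  rw [← Nat.card_congr e2.toEquiv, Nat.card_congr e1.toEquiv]
  exact (Nat.card_congr e3).symm

/-! ### (B2) residue degrees -/

section Rel

variable {K L M : LF q} [FiniteDimensional ℚ_[q] K] [FiniteDimensional ℚ_[q] L]
  [FiniteDimensional ℚ_[q] M]

theorem resCard_eq_pow_resDeg (h : K ≤ L) : resCard q L = resCard q K ^ resDeg h := by
  rw [resCard_eq, resCard_eq, card_residueField_eq_pow h]

theorem resDeg_eq_iff (h : K ≤ L) {f : ℕ} : resDeg h = f ↔ resCard q L = resCard q K ^ f := by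
  rw [resCard_eq_pow_resDeg h]
  constructor
  · rintro rfl; rfl
  · intro hf
    exact Nat.pow_right_injective (one_lt_resCard K) hf

/-! ### (B3) towers -/

theorem resDeg_trans (h : K ≤ L) (h' : L ≤ M) :
    resDeg (h.trans h') = resDeg h * resDeg h' := by
  rw [resDeg_eq_iff, resCard_eq_pow_resDeg h', resCard_eq_pow_resDeg h, pow_mul]

theorem pow_unifNorm_injective (L : LF q) [FiniteDimensional ℚ_[q] L] :
    Function.Injective (fun n : ℕ => unifNorm L ^ n) := by
  intro a b hab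
  have := zpow_unifNorm_injective L (a₁ := (a : ℤ)) (a₂ := (b : ℤ)) (by simpa using hab)
  exact_mod_cast this

theorem ramIdx_eq_iff (h : K ≤ L) {e : ℕ} : ramIdx h = e ↔ unifNorm K = unifNorm L ^ e := by
  rw [unifNorm_eq_pow h]
  constructor
  · rintro rfl; rfl
  · intro he
    exact pow_unifNorm_injective L he

theorem ramIdx_trans (h : K ≤ L) (h' : L ≤ M) :
    ramIdx (h.trans h') = ramIdx h * ramIdx h' := by
  rw [ramIdx_eq_iff, unifNorm_eq_pow h, unifNorm_eq_pow h', ← pow_mul, mul_comm]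

theorem ramIdx_self (K : LF q) [FiniteDimensional ℚ_[q] K] : ramIdx (le_refl K) = 1 := by
  rw [ramIdx_eq_iff, pow_one]

theorem resDeg_self (K : LF q) [FiniteDimensional ℚ_[q] K] : resDeg (le_refl K) = 1 := by
  rw [resDeg_eq_iff, pow_one]

/-! ### (B4) unramified = same value group -/

theorem ramIdx_eq_one_iff (h : K ≤ L) :
    ramIdx h = 1 ↔ ∀ x ∈ L, ∃ y ∈ K, ‖x‖ = ‖y‖ := by
  rw [ramIdx_eq_iff, pow_one]
  constructor
  · intro he x hx
    by_cases hx0 : x = 0
    · exact ⟨0, K.zero_mem, by rw [hx0]⟩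
    have hx0' : (⟨x, hx⟩ : L) ≠ 0 := fun h0 => hx0 (congrArg Subtype.val h0)
    have h1 := norm_eq_zpow_ord hx0'
    refine ⟨((unif K ^ ord L (⟨x, hx⟩ : L) : K) : PadicAlgCl q), (unif K ^ _ : K).2, ?_⟩
    have h2 : ‖(((unif K ^ ord L (⟨x, hx⟩ : L) : K)) : PadicAlgCl q)‖ =
        unifNorm K ^ ord L (⟨x, hx⟩ : L) := by
      have : ((unif K ^ ord L (⟨x, hx⟩ : L) : K) : PadicAlgCl q) =
          (unif K : PadicAlgCl q) ^ ord L (⟨x, hx⟩ : L) := map_zpow₀ K.val (unif K) _
      rw [this, norm_zpow]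
      rfl
    rw [h2, he]
    exact h1
  · intro hval
    obtain ⟨y, hyK, hy⟩ := hval (unif L : PadicAlgCl q) (unif L).2
    have hyn : ‖y‖ = unifNorm L := hy.symm
    have h1 : ‖y‖ ≤ unifNorm K :=
      (isUnif_unif K).2.2 ⟨y, hyK⟩ (by show ‖y‖ < 1; rw [hyn]; exact unifNorm_lt_one L)
    have h2 : unifNorm K ≤ unifNorm L :=
      (isUnif_unif L).2.2 (IntermediateField.inclusion h (unif K)) (unifNorm_lt_one K)
    rw [hyn] at h1
    exact le_antisymm h2 h1

theorem IsUnif.of_ramIdx_eq_one (h : K ≤ L) (he : ramIdx h = 1) {π : K} (hπ : IsUnif K π) :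
    IsUnif L (IntermediateField.inclusion h π) := by
  rw [ramIdx_eq_iff, pow_one] at he
  refine ⟨?_, hπ.2.1, ?_⟩
  · rw [Ne, map_eq_zero]; exact hπ.1
  · intro y hy
    have h1 : ‖((IntermediateField.inclusion h π : L) : PadicAlgCl q)‖ = unifNorm L := by
      rw [← he]; exact hπ.norm_eq
    rw [h1]
    exact (isUnif_unif L).2.2 y hy

/-! ### (B5) the unramified extensions `K_n` -/

theorem ramIdx_unr (K : LF q) [FiniteDimensional ℚ_[q] K] {n : ℕ} (hn : 0 < n) :
    haveI := finiteDimensional_unr (K := K) hn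
    ramIdx (le_unr K n) = 1 := by
  haveI := finiteDimensional_unr (K := K) hn
  rw [ramIdx_eq_one_iff]
  intro x hx
  exact unramified hn hx

theorem resDeg_unr (K : LF q) [FiniteDimensional ℚ_[q] K] {n : ℕ} (hn : 0 < n) :
    haveI := finiteDimensional_unr (K := K) hn
    resDeg (le_unr K n) = n := by
  haveI := finiteDimensional_unr (K := K) hn
  rw [resDeg_eq_iff]
  exact resCard_unr hn

/-! ### (B6) base change -/

theorem sup_unr_eq (h : K ≤ L) (m : ℕ) : L ⊔ unr q K (resDeg h * m) = unr q L m :=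
  sup_unr h (resCard_eq_pow_resDeg h) m

theorem sup_unr_finrank (h : K ≤ L) :
    L ⊔ unr q K (ramIdx h * resDeg h) = unr q L (ramIdx h) := by
  rw [mul_comm]
  exact sup_unr_eq h _

end Rel

/-! ### (B7) `ord` as a homomorphism on units -/

section OrdHom

variable {K L : LF q} [FiniteDimensional ℚ_[q] K] [FiniteDimensional ℚ_[q] L]

theorem ord_algEquiv (σ : L ≃ₐ[ℚ_[q]] L) (x : L) : ord L (σ x) = ord L x := by
  by_cases hx : x = 0
  · rw [hx, map_zero]
  have hσx : σ x ≠ 0 := by rw [Ne, map_eq_zero_iff σ σ.injective]; exact hx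
  rw [ord_eq_iff hσx, norm_algEquiv_self σ x]
  exact norm_eq_zpow_ord hx

theorem ord_relAlgEquiv (h : K ≤ L) :
    letI := relAlgebra h
    ∀ (σ : L ≃ₐ[K] L) (x : L), ord L (σ x) = ord L x := by
  letI := relAlgebra h
  haveI : IsScalarTower ℚ_[q] K L := IsScalarTower.of_algebraMap_eq (fun _ => rfl)
  intro σ x
  exact ord_algEquiv (σ.restrictScalars ℚ_[q]) x

variable (L) in
/-- the normalised valuation as a homomorphism `Lˣ → ℤ` (additive notation). -/
def ordHom : Additive (↥L)ˣ →+ ℤ where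
  toFun u := ord L ((Additive.toMul u : (↥L)ˣ) : L)
  map_zero' := ord_one
  map_add' _ _ := ord_mul (Units.ne_zero _) (Units.ne_zero _)

theorem ordHom_apply (u : (↥L)ˣ) : ordHom L (Additive.ofMul u) = ord L (u : L) := rfl

theorem ordHom_surjective : Function.Surjective (ordHom L) := by
  intro m
  have h0 : (unif L) ^ m ≠ 0 := zpow_ne_zero m (isUnif_unif L).1
  refine ⟨Additive.ofMul (Units.mk0 _ h0), ?_⟩
  rw [ordHom_apply, Units.val_mk0, ord_unif_zpow]

theorem ordHom_eq_zero_iff (u : (↥L)ˣ) :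
    ordHom L (Additive.ofMul u) = 0 ↔ ‖((u : L) : PadicAlgCl q)‖ = 1 := by
  rw [ordHom_apply, ord_eq_zero_iff u.ne_zero]

theorem ordHom_algEquiv (σ : L ≃ₐ[ℚ_[q]] L) (u : (↥L)ˣ) :
    ordHom L (Additive.ofMul (Units.map (σ : L →* L) u)) = ordHom L (Additive.ofMul u) := by
  rw [ordHom_apply, ordHom_apply]
  exact ord_algEquiv σ u

theorem ordHom_relAlgEquiv (h : K ≤ L) :
    letI := relAlgebra h
    ∀ (σ : L ≃ₐ[K] L) (u : (↥L)ˣ),
      ordHom L (Additive.ofMul (Units.map (σ : L →* L) u)) = ordHom L (Additive.ofMul u) := by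
  letI := relAlgebra h
  intro σ u
  rw [ordHom_apply, ordHom_apply]
  exact ord_relAlgEquiv h σ u

theorem ordHom_inclusion (h : K ≤ L) (u : (↥K)ˣ) :
    ordHom L (Additive.ofMul (Units.map (IntermediateField.inclusion h : K →* L) u)) =
      ramIdx h * ordHom K (Additive.ofMul u) := by
  rw [ordHom_apply, ordHom_apply]
  exact ord_inclusion h u

theorem ordHom_relNorm (h : K ≤ L) :
    letI := relAlgebra h
    ∀ u : (↥L)ˣ, ordHom K (Additive.ofMul (Units.map (Algebra.norm K : L →* K) u)) =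
      resDeg h * ordHom L (Additive.ofMul u) := by
  letI := relAlgebra h
  intro u
  rw [ordHom_apply, ordHom_apply]
  exact ord_relNorm h u u.ne_zero

end OrdHom

end Fermat.Agent.S55.LocField17
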