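/-
S55 / 20-LOC-MODEL (helper17): the norm index over the BASE FIELD `ℚ_[q]` itself (a type, not an
`LF q`), and the discharge of the single hypothesis `hidx` of helper78's wild case (34-P).
For `E : LF q` finite cyclic over `ℚ_[q]`: `[ℚ_qˣ : N Eˣ] = [E : ℚ_q]`.
-/
import Mathlib
import Fermat.Agent.S55.LocField17.LocHAdapt
import Fermat.Agent.S55.CycloRecip78.Layer

set_option autoImplicit false
set_option linter.style.haveILetI false
set_option linter.unusedSectionVars false

noncomputable section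

namespace Fermat.Agent.S55.LocField17

open Module NNReal

variable {q : ℕ} [Fact q.Prime]

/-- ultrametric geometric series in any complete ultrametric normed field. -/
theorem exists_sum_of_geometric_gen {F : Type*} [NormedField F] [IsUltrametricDist F]
    [CompleteSpace F] {r : ℝ} (hr0 : 0 ≤ r) (hr1 : r < 1) (a : ℕ → F)
    (ha : ∀ n, ‖a n‖ ≤ r ^ n) :
    ∃ s : F, ∀ N, ‖s - ∑ n ∈ Finset.range N, a n‖ ≤ r ^ N := by
  have hsum : Summable a := by
    refine Summable.of_norm_bounded (summable_geometric_of_lt_one hr0 hr1) ?_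
    intro n
    exact ha n
  refine ⟨∑' n, a n, fun N => ?_⟩
  have hpart : ∀ M, ‖(∑ n ∈ Finset.range M, a (n + N) : F)‖ ≤ r ^ N := by
    intro M
    by_cases hM : (Finset.range M).Nonempty
    · obtain ⟨i, _, hi⟩ := IsUltrametricDist.exists_norm_finsetSum_le_of_nonempty hM
        (fun n => a (n + N))
      refine hi.trans ((ha (i + N)).trans ?_)
      exact pow_le_pow_of_le_one hr0 hr1.le (Nat.le_add_left N i)
    · rw [Finset.not_nonempty_iff_eq_empty] at hM
      rw [hM, Finset.sum_empty, norm_zero]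
      exact pow_nonneg hr0 N
  have hs2 : HasSum (fun n => a (n + N)) (∑' n, a n - ∑ n ∈ Finset.range N, a n) := by
    exact (_root_.hasSum_nat_add_iff' N).2 hsum.hasSum
  have hlim := hs2.tendsto_sum_nat
  have hcl : IsClosed {y : F | ‖y‖ ≤ r ^ N} := isClosed_le continuous_norm continuous_const
  exact hcl.mem_of_tendsto hlim (Filter.Eventually.of_forall hpart)

theorem norm_algebraMap_base (E : LF q) (x : ℚ_[q]) : ‖algebraMap ℚ_[q] E x‖ = ‖x‖ :=
  PadicAlgCl.norm_extends q x

theorem norm_q_base_lt_one : ‖(q : ℚ_[q])‖ < 1 := Padic.norm_p_lt_one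

variable (E : LF q) [FiniteDimensional ℚ_[q] E]

/-- **the `LocH95` datum of `E / ℚ_[q]`** (`c = q`, `π = unif E`). -/
def locFieldDatumBase : LocH95.LocFieldDatum ℚ_[q] (nnv E) :=
  have hq1 : ‖(q : ℚ_[q])‖ < 1 := norm_q_base_lt_one
  have hq0 : (0 : ℝ) ≤ ‖(q : ℚ_[q])‖ := norm_nonneg _
  have hqne : (q : ℚ_[q]) ≠ 0 := Nat.cast_ne_zero.mpr (Fact.out : q.Prime).ne_zero
  { v_smul := fun σ x => by
      apply NNReal.coe_injective
      exact norm_algEquiv_self σ x
    c := (q : ℚ_[q])
    c_ne := hqne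
    c_lt := by
      rw [← NNReal.coe_lt_coe, coe_nnv', norm_algebraMap_base]
      exact hq1
    arch := fun x => by
      obtain ⟨n, hn⟩ := exists_pow_lt_of_lt_one (show (0 : ℝ) < 1 / (‖x‖ + 1) by positivity) hq1
      refine ⟨n, ?_⟩
      rw [← NNReal.coe_le_coe, coe_nnv', norm_mul, norm_pow, norm_algebraMap_base]
      have h2 : ‖(q : ℚ_[q])‖ ^ n * ‖x‖ ≤ 1 / (‖x‖ + 1) * ‖x‖ :=
        mul_le_mul_of_nonneg_right hn.le (norm_nonneg _)
      refine h2.trans ?_
      rw [NNReal.coe_one, div_mul_eq_mul_div, one_mul, div_le_one (by positivity)]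
      linarith
    complete := fun a ha => by
      have ha' : ∀ n, ‖a n‖ ≤ ‖(q : ℚ_[q])‖ ^ n := by
        intro n
        have := ha n
        rw [← NNReal.coe_le_coe, coe_nnv', norm_algebraMap_base, NNReal.coe_pow, coe_nnv',
          norm_algebraMap_base] at this
        exact this
      obtain ⟨s, hs⟩ := exists_sum_of_geometric_gen hq0 hq1 a ha'
      refine ⟨s, fun N => ?_⟩
      rw [← NNReal.coe_le_coe, coe_nnv', norm_algebraMap_base, NNReal.coe_pow, coe_nnv',
        norm_algebraMap_base]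
      exact hs N
    fin := fun m => by
      obtain ⟨T, hT⟩ := exists_finset_net E
        (show 0 < ‖(q : ℚ_[q])‖ ^ m from pow_pos (norm_pos_iff.2 hqne) m)
      refine ⟨T, fun x hx => ?_⟩
      rw [← NNReal.coe_le_coe] at hx
      obtain ⟨t, ht, hxt⟩ := hT x hx
      refine ⟨t, ht, ?_⟩
      rw [← NNReal.coe_le_coe, coe_nnv', NNReal.coe_pow, coe_nnv', norm_algebraMap_base]
      exact hxt
    π := unif E
    π_lt := by
      rw [nnv_lt_one_iff]
      exact (isUnif_unif E).2.1
    π_ne := (isUnif_unif E).1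
    hval := fun x hx => by
      refine ⟨ord E x, ?_⟩
      apply NNReal.coe_injective
      rw [NNReal.coe_zpow]
      exact norm_eq_zpow_ord hx }

/-- **norm index of a cyclic extension `E / ℚ_[q]`**: `[ℚ_qˣ : N Eˣ] = [E : ℚ_q]`. -/
theorem index_norm_range_base [IsGalois ℚ_[q] E] (σ₀ : E ≃ₐ[ℚ_[q]] E)
    (hσ : ∀ τ, τ ∈ Subgroup.zpowers σ₀) :
    (Units.map (Algebra.norm ℚ_[q] : E →* ℚ_[q])).range.index = Module.finrank ℚ_[q] E :=
  LocH95.index_norm_range (locFieldDatumBase E) σ₀ hσ

theorem index_normRange_of_isCyclic [IsGalois ℚ_[q] E] [IsCyclic (E ≃ₐ[ℚ_[q]] E)] :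
    (CycloRecip78.normRange ℚ_[q] E).index = Module.finrank ℚ_[q] E := by
  obtain ⟨σ₀, hσ⟩ := IsCyclic.exists_generator (α := E ≃ₐ[ℚ_[q]] E)
  exact index_norm_range_base E σ₀ hσ

/-! ### discharge of `hidx` of `CycloRecip78` (34-P, wild case) -/

section Wild

open Fermat.Agent.S55.CycloRecip78 Fermat.Agent.S55.CycloRecip90

theorem isGalois_padicAlgCl (p : ℕ) [Fact p.Prime] : IsGalois ℚ_[p] (PadicAlgCl p) where

attribute [local instance] isGalois_padicAlgCl

variable (p : ℕ) [hp : Fact p.Prime] {n : ℕ} {ζ : PadicAlgCl p}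
  (hζ : IsPrimitiveRoot ζ (p ^ (n + 1))) (E : IntermediateField ℚ_[p] (PadicAlgCl p))
  (hfix : ∀ τ : PadicAlgCl p ≃ₐ[ℚ_[p]] PadicAlgCl p,
    τ ∈ E.fixingSubgroup ↔ (chi (K := ℚ_[p]) p hζ τ) ^ (p - 1) = 1)

include hfix

/-- the layer is finite over `ℚ_p`. -/
theorem finiteDimensional_layer_padic (hp2 : p ≠ 2) : FiniteDimensional ℚ_[p] E := by
  have h := finrank_layer_padic p hζ E hfix hp2
  exact Module.finite_of_finrank_pos (by rw [h]; exact pow_pos hp.out.pos n)

/-- **`hidx`**: the local first inequality (in fact equality) for the wild layer. -/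
theorem index_normRange_layer (hp2 : p ≠ 2) : (normRange ℚ_[p] E).index = p ^ n := by
  haveI := finiteDimensional_layer_padic p hζ E hfix hp2
  haveI : IsGalois ℚ_[p] E := isGalois_layer p hζ E hfix
  haveI := isCyclic_gal_layer_padic p hζ E hfix hp2
  rw [index_normRange_of_isCyclic E, finrank_layer_padic p hζ E hfix hp2]

theorem hidx_layer (hp2 : p ≠ 2) : p ^ n ≤ (normRange ℚ_[p] E).index :=
  (index_normRange_layer p hζ E hfix hp2).ge

/-- **(R3) unconditional**: local norms from the wild layer die under `ρ_p = fakeSymbol n`. -/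
theorem fakeSymbol_norm_layer_eq_one_padic (hp2 : p ≠ 2) (y : Eˣ) :
    fakeSymbol (p := p) n (Units.map (Algebra.norm ℚ_[p] : E →* ℚ_[p]) y) = 1 :=
  fakeSymbol_norm_layer_eq_one p hζ E hfix hp2 (hidx_layer p hζ E hfix hp2) y

/-- the norm group of the wild layer is the kernel of the explicit symbol, unconditionally. -/
theorem normRange_layer_eq_ker_fakeSymbol_padic (hp2 : p ≠ 2) :
    normRange ℚ_[p] E = (fakeSymbol (p := p) n).ker :=
  normRange_layer_eq_ker_fakeSymbol p hζ E hfix hp2 (hidx_layer p hζ E hfix hp2)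

end Wild

end Fermat.Agent.S55.LocField17
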