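/-
S55 / 20-LOC-MODEL (helper17): ADAPTER into helper51's `LocDev51` (local devissage).
For `K ≤ L` finite extensions of `ℚ_[q]` inside `PadicAlgCl q` (`L` a `K`-algebra via
`relAlgebra h`): `(Gal(L/K), L)` is a local G-field, hence `H¹(Gal(L/K), Lˣ) = 0` and
`|H²(Gal(L/K), Lˣ)|` divides `[L : K]`, and likewise for all sub-quotients.
No normed-algebra instances are needed.
-/
import Mathlib
import Fermat.Agent.S55.LocField17.LocHAdapt
import Fermat.Agent.S55.LocDev51.Devissage

set_option autoImplicit false
set_option linter.style.haveILetI false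
set_option linter.unusedSectionVars false

noncomputable section

namespace Fermat.Agent.S55.LocField17

open Module CategoryTheory groupCohomology Rep Fermat.Agent.S55.LocDev51

attribute [local instance] Units.mulDistribMulActionRight

variable {q : ℕ} [Fact q.Prime] {K L : LF q} [FiniteDimensional ℚ_[q] K]
  [FiniteDimensional ℚ_[q] L]

/-- `(Gal(L/K), L)` is a local G-field (helper51's vocabulary). -/
theorem isLocalGField_rel (h : K ≤ L) :
    letI := relAlgebra h
    IsLocalGField (L ≃ₐ[K] L) L := by
  letI := relAlgebra h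
  haveI := finiteDimensional_rel h
  exact
  { finite := inferInstance
    faithful := inferInstance
    isometric := fun τ x => norm_relAlgEquiv h τ x
    ultrametric := inferInstance
    proper := inferInstance
    nontrivial := ⟨((q : ℕ) : L), norm_pos_iff.2 (natCast_q_ne_zero L),
      norm_natCast_q_lt_one L⟩ }

/-- `unitsRep (Gal(L/K)) L` is Mathlib's `Rep.ofAlgebraAutOnUnits K L` (any fields). -/
def unitsRepIsoRel (F E : Type) [Field F] [Field E] [Algebra F E] :
    unitsRep (E ≃ₐ[F] E) E ≅ Rep.ofAlgebraAutOnUnits F E :=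
  Rep.mkIso (Representation.Equiv.mk (LinearEquiv.refl ℤ _) (by
    intro g
    ext x
    rfl))

theorem localClass_rel (h : K ≤ L) :
    letI := relAlgebra h
    LocalClass (L ≃ₐ[K] L) (Rep.ofAlgebraAutOnUnits K L) := by
  letI := relAlgebra h
  exact ⟨L, inferInstance, inferInstance, isLocalGField_rel h, ⟨(unitsRepIsoRel K L).symm⟩⟩

/-- Hilbert 90 and the local second inequality in the `LF q` model. -/
theorem isZero_H1_rel (h : K ≤ L) :
    letI := relAlgebra h
    Limits.IsZero (groupCohomology (Rep.ofAlgebraAutOnUnits K L) 1) := by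
  letI := relAlgebra h
  haveI := finiteDimensional_rel h
  exact (localClass_devissage (localClass_rel h)).1

theorem card_H2_dvd_card_rel (h : K ≤ L) :
    letI := relAlgebra h
    Nat.card (groupCohomology (Rep.ofAlgebraAutOnUnits K L) 2) ∣ Nat.card (L ≃ₐ[K] L) := by
  letI := relAlgebra h
  haveI := finiteDimensional_rel h
  exact (localClass_devissage (localClass_rel h)).2

/-- **`|H²(Gal(L/K), Lˣ)|` divides `[L : K]`**. -/
theorem card_H2_dvd_rel (h : K ≤ L) :
    letI := relAlgebra h
    ∀ [IsGalois K L],
      Nat.card (groupCohomology (Rep.ofAlgebraAutOnUnits K L) 2) ∣ Module.finrank K L := by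
  letI := relAlgebra h
  haveI := finiteDimensional_rel h
  intro _
  have := card_H2_dvd_card_rel h
  rwa [IsGalois.card_aut_eq_finrank] at this

theorem finite_H2_rel (h : K ≤ L) :
    letI := relAlgebra h
    Finite (groupCohomology (Rep.ofAlgebraAutOnUnits K L) 2) := by
  letI := relAlgebra h
  haveI := finiteDimensional_rel h
  have hd := card_H2_dvd_card_rel h
  have hpos : 0 < Nat.card (L ≃ₐ[K] L) := Nat.card_pos
  have : Nat.card (groupCohomology (Rep.ofAlgebraAutOnUnits K L) 2) ≠ 0 := fun h0 => by
    rw [h0, zero_dvd_iff] at hd; omega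
  exact Nat.finite_of_card_ne_zero this

/-- all sub-quotients `(H ⧸ N, (Lˣ)^N)`, `N ⊴ H ≤ Gal(L/K)`. -/
theorem subquotient_rel (h : K ≤ L) :
    letI := relAlgebra h
    ∀ (H : Subgroup (L ≃ₐ[K] L)) (N : Subgroup H) [N.Normal],
      Limits.IsZero (groupCohomology
        ((Rep.res H.subtype (Rep.ofAlgebraAutOnUnits K L)).quotientToInvariants N) 1) ∧
      Nat.card (groupCohomology
        ((Rep.res H.subtype (Rep.ofAlgebraAutOnUnits K L)).quotientToInvariants N) 2) ∣
        Nat.card (H ⧸ N) := by
  letI := relAlgebra h
  haveI := finiteDimensional_rel h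
  intro H N _
  exact localClass_devissage
    (closed_localClass.quot H _ (closed_localClass.res _ _ (localClass_rel h) H) N)

/-- the quotient form for a normal subgroup `N` of `Gal(L/K)`. -/
theorem quotient_rel (h : K ≤ L) :
    letI := relAlgebra h
    ∀ (N : Subgroup (L ≃ₐ[K] L)) [N.Normal],
      Limits.IsZero (groupCohomology
        ((Rep.ofAlgebraAutOnUnits K L).quotientToInvariants N) 1) ∧
      Nat.card (groupCohomology
        ((Rep.ofAlgebraAutOnUnits K L).quotientToInvariants N) 2) ∣
        Nat.card ((L ≃ₐ[K] L) ⧸ N) := by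
  letI := relAlgebra h
  haveI := finiteDimensional_rel h
  intro N _
  exact localClass_devissage (closed_localClass.quot _ _ (localClass_rel h) N)

/-- restriction to a subgroup `H ≤ Gal(L/K)` (Hilbert 90 for all subgroups + upper bound). -/
theorem res_rel (h : K ≤ L) :
    letI := relAlgebra h
    ∀ (H : Subgroup (L ≃ₐ[K] L)),
      Limits.IsZero (groupCohomology (Rep.res H.subtype (Rep.ofAlgebraAutOnUnits K L)) 1) ∧
      Nat.card (groupCohomology (Rep.res H.subtype (Rep.ofAlgebraAutOnUnits K L)) 2) ∣
        Nat.card H := by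
  letI := relAlgebra h
  haveI := finiteDimensional_rel h
  intro H
  exact localClass_devissage (closed_localClass.res _ _ (localClass_rel h) H)

end Fermat.Agent.S55.LocField17
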